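/-
IHARA / B0 (helper4), file 4: **the Frobenius relations on toric classes**.

`Y` a Kummer function (exponent `p`) at the level `K q` such that `Y` and `w_q Y` are in
`ℚ̄^× · (1 + 𝔪_A)` modulo `p`-th powers; `φ` a Frobenius element at `A | q`.  Then

* `ihb_frob_sq` : `φ • φ • [Y] = q² • [Y]` (from `t2f_P4K`);
* `ihb_frob_w`  : `φ • [Y] + q • w_q [Y] = 0` (from (B4) `IhbToricFrob`).
-/
import Mathlib
import Fermat.Agent.Lib.Ihara.B.Wire.Inf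
import Fermat.Agent.Lib.T2.F.ToricFinal

set_option autoImplicit false
set_option linter.unusedSectionVars false
set_option linter.unusedVariables false
set_option linter.style.haveILetI false
set_option synthInstance.maxHeartbeats 400000
set_option maxHeartbeats 1000000

namespace Fermat.Agent.Ihara

open ModularCurve HahnSeries Fermat.Agent.T1 Fermat.Agent.T2 Fermat.Agent.TW Fermat.Agent.Delta
  Fermat.Agent.S33 Fermat.Agent.S33Q Fermat.Agent.S05Lib AlgebraicCurve Fermat.Agent.Curve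
  Fermat.Agent.T3 Fermat.Agent.Alpha ModularFormClass CongruenceSubgroup Fermat.Agent.S24Lib

local notation "Qb" => AlgebraicClosure ℚ
local notation "GQ" => (AlgebraicClosure ℚ ≃ₐ[ℚ] AlgebraicClosure ℚ)

noncomputable section

attribute [local instance] s33g_neZero
attribute [local instance] t2gp_fact

variable (𝔓 : FFPlace) (K : ℕ) [NeZero K] (hK : ¬ 𝔓.p ∣ K)

/-- **`φ² = q²` on toric classes** -/
theorem ihb_frob_sq {φ : GQ} (hφ : 𝔓.P.IsFrobeniusAt φ 𝔓.p) {p : ℕ} (hp : p.Prime)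
    (hpq : p ≠ 𝔓.p)
    (Y : (↥(modularFunctionFieldBar (K * 𝔓.p)))ˣ)
    (hY : ∀ v : Place Qb ↥(modularFunctionFieldBar (K * 𝔓.p)),
      (p : ℤ) ∣ v.ord (Y : ↥(modularFunctionFieldBar (K * 𝔓.p))))
    (h1 : ∃ s : (↥(modularFunctionFieldBar (K * 𝔓.p)))ˣ, T2fInf (K * 𝔓.p) 𝔓.P (Y * s ^ p))
    (h2 : ∃ s : (↥(modularFunctionFieldBar (K * 𝔓.p)))ˣ,
      T2fInf (K * 𝔓.p) 𝔓.P (dleWU K 𝔓.p hK Y * s ^ p)) :
    φ • φ • alpfClass hp.ne_zero Y hY = (𝔓.p ^ 2) • alpfClass hp.ne_zero Y hY := by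
  have hp0 := hp.ne_zero
  have hcop : Nat.Coprime p 𝔓.p := (Nat.coprime_primes hp 𝔓.hp).mpr hpq
  obtain ⟨t, ht⟩ := t2f_P4K K 𝔓.p hK 𝔓.P 𝔓.hP φ hφ p hcop hp0 Y hY h1 h2
  rw [ihb_class_sig (K * 𝔓.p) hp0 φ Y hY,
    ihb_class_sig (K * 𝔓.p) hp0 φ (tkrSig (K * 𝔓.p) φ Y) (tkrSig_mem_tWsub (K * 𝔓.p) p φ hY)]
  obtain ⟨hY', hcl⟩ := ihb_class_mul_pow hp0 (Y ^ (𝔓.p ^ 2)) t (dlw_dvd_ord_pow Y hY (𝔓.p ^ 2))
  rw [← dlw_class_npow hp0 Y hY (𝔓.p ^ 2), ← hcl]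
  exact dlw_class_congr hp0 ht _ _

/-- **`φ = - q w_q` on toric classes** -/
theorem ihb_frob_w (h4 : IhbToricFrob) {φ : GQ} (hφ : 𝔓.P.IsFrobeniusAt φ 𝔓.p) {p : ℕ}
    (hp : p.Prime) (hpq : p ≠ 𝔓.p)
    (Y : (↥(modularFunctionFieldBar (K * 𝔓.p)))ˣ)
    (hY : ∀ v : Place Qb ↥(modularFunctionFieldBar (K * 𝔓.p)),
      (p : ℤ) ∣ v.ord (Y : ↥(modularFunctionFieldBar (K * 𝔓.p))))
    (h1 : ∃ s : (↥(modularFunctionFieldBar (K * 𝔓.p)))ˣ, T2fInf (K * 𝔓.p) 𝔓.P (Y * s ^ p))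
    (h2 : ∃ s : (↥(modularFunctionFieldBar (K * 𝔓.p)))ˣ,
      T2fInf (K * 𝔓.p) 𝔓.P (dleWU K 𝔓.p hK Y * s ^ p)) :
    φ • alpfClass hp.ne_zero Y hY + 𝔓.p • dleWJ K 𝔓.p hK (alpfClass hp.ne_zero Y hY) = 0 := by
  have hp0 := hp.ne_zero
  have hcop : Nat.Coprime p 𝔓.p := (Nat.coprime_primes hp 𝔓.hp).mpr hpq
  obtain ⟨t, ht⟩ := h4 K 𝔓.p hK 𝔓.P 𝔓.hP φ hφ p hcop hp0 Y hY h1 h2
  have hW := dle_dvd_ord_w K 𝔓.p hK Y hY
  rw [ihb_class_sig (K * 𝔓.p) hp0 φ Y hY, dleWJ_class K 𝔓.p hK hp0 Y hY,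
    ← dlw_class_npow hp0 (dleWU K 𝔓.p hK Y) hW 𝔓.p]
  have hmul : ∀ v : Place Qb ↥(modularFunctionFieldBar (K * 𝔓.p)),
      (p : ℤ) ∣ v.ord ((tkrSig (K * 𝔓.p) φ Y * dleWU K 𝔓.p hK Y ^ 𝔓.p :
        (↥(modularFunctionFieldBar (K * 𝔓.p)))ˣ) : ↥(modularFunctionFieldBar (K * 𝔓.p))) :=
    Subgroup.mul_mem (tWsub Qb (K * 𝔓.p) p) (tkrSig_mem_tWsub (K * 𝔓.p) p φ hY)
      (dlw_dvd_ord_pow (dleWU K 𝔓.p hK Y) hW 𝔓.p)
  rw [← alpfClass_mul hp0 _ _ (tkrSig_mem_tWsub (K * 𝔓.p) p φ hY)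
    (dlw_dvd_ord_pow (dleWU K 𝔓.p hK Y) hW 𝔓.p) hmul]
  have hpow : ∀ v : Place Qb ↥(modularFunctionFieldBar (K * 𝔓.p)),
      (p : ℤ) ∣ v.ord ((t ^ p : (↥(modularFunctionFieldBar (K * 𝔓.p)))ˣ) :
        ↥(modularFunctionFieldBar (K * 𝔓.p))) := by
    intro v
    rw [Units.val_pow_eq_pow_val, ← zpow_natCast, v.ord_zpow]
    exact dvd_mul_right _ _
  rw [← alpfClass_pow hp0 t hpow]
  exact dlw_class_congr hp0 ht _ _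

end

end Fermat.Agent.Ihara
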