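/-
IHARA / B0 (helper4), file 1: **series-level wiring**.

* `ihb_inf_of_redTo_const` : a function whose reduction on `Z_∞` is a non-zero constant is in
  `ℚ̄^× · (1 + 𝔪_A)` (`T2fInf`);
* `ihb_exists_lift`        : every non-zero function of `tbBarF 𝔓 K` is the reduction of a function of
  level `K q` (coming from the level `K`);
* `ihb_units_of_series`    : units of `tbBarF 𝔓 K` from series of `tbBarF 𝔓 M`, `M ∣ K`.
-/
import Mathlib
import Fermat.Agent.Lib.Ihara.B.Defs
import Fermat.Agent.Lib.Ihara.B.Red.Main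

set_option autoImplicit false
set_option linter.unusedSectionVars false
set_option linter.unusedVariables false
set_option linter.style.haveILetI false
set_option synthInstance.maxHeartbeats 400000

open WeierstrassCurve WeierstrassCurve.Affine WeierstrassCurve.Affine.Point

namespace Fermat.Agent.Ihara

open ModularCurve HahnSeries Fermat.Agent.T1 Fermat.Agent.T2 Fermat.Agent.TW Fermat.Agent.Delta
  Fermat.Agent.S33 Fermat.Agent.S33Q Fermat.Agent.S05Lib AlgebraicCurve Fermat.Agent.Curve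
  Fermat.Agent.T3 Fermat.Agent.Alpha ModularFormClass CongruenceSubgroup Fermat.Agent.S24Lib

local notation "Qb" => AlgebraicClosure ℚ
local notation "GQ" => (AlgebraicClosure ℚ ≃ₐ[ℚ] AlgebraicClosure ℚ)

noncomputable section

attribute [local instance] s33g_neZero

section Series

variable (𝔓 : FFPlace)

/-- a function whose reduction (up to a constant) is a non-zero constant is in `ℚ̄^× · (1 + 𝔪_A)` -/
theorem ihb_inf_of_redTo_const (N : ℕ) [NeZero N] (Z : (↥(modularFunctionFieldBar N))ˣ)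
    {c₀ : IsLocalRing.ResidueField ↥𝔓.P} (hc₀ : c₀ ≠ 0)
    (hZ : DlsRedTo 𝔓.P (IsLocalRing.residue ↥𝔓.P)
      ((Z : ↥(modularFunctionFieldBar N)) : LaurentSeries Qb) (HahnSeries.C c₀)) :
    T2fInf N 𝔓.P Z := by
  obtain ⟨c, a, b, hc, ha, hb, e, e1⟩ := hZ
  obtain ⟨u, rfl⟩ := IsLocalRing.residue_surjective c₀
  have hu0 : (u : Qb) ≠ 0 := by
    intro h0
    apply hc₀
    have : u = 0 := Subtype.ext h0
    rw [this, _root_.map_zero]
  have hcu : (c * (u : Qb))⁻¹ ≠ 0 := inv_ne_zero (mul_ne_zero hc hu0)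
  refine ⟨(c * (u : Qb))⁻¹, hcu, a, HahnSeries.C u * b, ?_, ?_, ?_⟩
  · -- `ā = ū b̄`
    have h1 : coeffMap (IsLocalRing.residue ↥𝔓.P) (HahnSeries.C u * b) =
        HahnSeries.C (IsLocalRing.residue ↥𝔓.P u) * coeffMap (IsLocalRing.residue ↥𝔓.P) b := by
      rw [map_mul]
      congr 1
      rw [HahnSeries.C_apply, coeffMap_single, HahnSeries.C_apply]
    rw [h1]
    exact e1.symm
  · have h1 : coeffMap (IsLocalRing.residue ↥𝔓.P) (HahnSeries.C u * b) =
        HahnSeries.C (IsLocalRing.residue ↥𝔓.P u) * coeffMap (IsLocalRing.residue ↥𝔓.P) b := by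
      rw [map_mul]
      congr 1
      rw [HahnSeries.C_apply, coeffMap_single, HahnSeries.C_apply]
    rw [h1]
    refine mul_ne_zero ?_ hb
    rw [Ne, map_eq_zero]
    exact hc₀
  · -- `c⁻¹ Z · (u b) = a`
    show algebraMap Qb (LaurentSeries Qb) (c * (u : Qb))⁻¹ *
      ((Z : ↥(modularFunctionFieldBar N)) : LaurentSeries Qb)
      * coeffMap 𝔓.P.subtype (HahnSeries.C u * b) = coeffMap 𝔓.P.subtype a
    have h2 : coeffMap 𝔓.P.subtype (HahnSeries.C u * b) =
        HahnSeries.C (u : Qb) * coeffMap 𝔓.P.subtype b := by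
      rw [map_mul]
      congr 1
      rw [HahnSeries.C_apply, coeffMap_single, HahnSeries.C_apply]
      rfl
    have e' : ((Z : ↥(modularFunctionFieldBar N)) : LaurentSeries Qb) * coeffMap 𝔓.P.subtype b =
        HahnSeries.C c * coeffMap 𝔓.P.subtype a := e
    rw [h2, algebraMap_laurentSeries_eq_single, ← HahnSeries.C_apply]
    calc HahnSeries.C (c * (u : Qb))⁻¹ * ((Z : ↥(modularFunctionFieldBar N)) : LaurentSeries Qb) *
          (HahnSeries.C (u : Qb) * coeffMap 𝔓.P.subtype b)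
        = HahnSeries.C (c * (u : Qb))⁻¹ * HahnSeries.C (u : Qb) *
          (((Z : ↥(modularFunctionFieldBar N)) : LaurentSeries Qb) * coeffMap 𝔓.P.subtype b) := by
          ring
      _ = HahnSeries.C ((c * (u : Qb))⁻¹ * (u : Qb) * c) * coeffMap 𝔓.P.subtype a := by
          rw [e', map_mul, map_mul]; ring
      _ = coeffMap 𝔓.P.subtype a := by
          have h3 : (c * (u : Qb))⁻¹ * (u : Qb) * c = 1 := by
            field_simp
          rw [h3, map_one, one_mul]

/-- every non-zero function of `tbBarF 𝔓 K` is the reduction of a function of level `K q` -/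
theorem ihb_exists_lift (K : ℕ) [NeZero K] (gb : ↥(tbBarF 𝔓 K)) (hgb : gb ≠ 0) :
    ∃ g : (↥(modularFunctionFieldBar (K * 𝔓.p)))ˣ,
      DlsRedTo 𝔓.P (IsLocalRing.residue ↥𝔓.P)
        ((g : ↥(modularFunctionFieldBar (K * 𝔓.p))) : LaurentSeries Qb)
        (gb : LaurentSeries (IsLocalRing.ResidueField ↥𝔓.P)) := by
  obtain ⟨g₀, c, a, b, ⟨hc, haF, hbF, hak, hbk, ha0, hb0, hfab⟩, hrel⟩ := ts_lift K 𝔓.P gb hgb
  have hg₀ : g₀ ≠ 0 := by
    rintro rfl
    rw [ZeroMemClass.coe_zero, zero_mul] at hfab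
    have h1 : algebraMap Qb (LaurentSeries Qb) c ≠ 0 := by
      rw [Ne, map_eq_zero]; exact hc
    exact mul_ne_zero h1 (ts_coeffMap_subtype_ne_zero ha0) hfab.symm
  refine ⟨dlwInclU (Dvd.intro 𝔓.p rfl : K ∣ K * 𝔓.p) (Units.mk0 g₀ hg₀), ?_⟩
  rw [coe_dlwInclU]
  refine ⟨c, a, b, hc, ha0, hb0, ?_, hrel⟩
  show (g₀ : LaurentSeries Qb) * coeffMap 𝔓.P.subtype b = HahnSeries.C c * coeffMap 𝔓.P.subtype a
  rw [hfab, algebraMap_laurentSeries_eq_single, ← HahnSeries.C_apply]

end Series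

end

end Fermat.Agent.Ihara
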