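/-
IHARA / B0 (helper4), file 2: **an unramified eigenclass which does not come from the level `M` is
toric**.

`ihb_toric`: `Y` a Kummer function (exponent `p`) at the level `M q` (`M` even, `K = 2 M` rigid) whose
class is fixed by the inertia group at `𝔓 | q` and is an eigenvector of all good `T_ℓ` with the
eigenvalues of `W`; if the eigensystem of `W` does not occur in `J₀(M)[p]`, then the image `Y''` of `Y`
at the level `K q` is in `ℚ̄^× · (1 + 𝔪_A)` modulo `p`-th powers.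
((B1)+(B2): the reduction on `Z_∞` has a `p`-divisible divisor; (B3): it is a constant times a `p`-th
power; lift the root.)
-/
import Mathlib
import Fermat.Agent.Lib.Ihara.B.Wire.Inf

set_option autoImplicit false
set_option linter.unusedSectionVars false
set_option linter.unusedVariables false
set_option linter.style.haveILetI false
set_option synthInstance.maxHeartbeats 400000
set_option maxHeartbeats 1000000

namespace Fermat.Agent.Ihara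

open ModularCurve HahnSeries Fermat.Agent.T1 Fermat.Agent.T2 Fermat.Agent.TW Fermat.Agent.Delta
  Fermat.Agent.S33 Fermat.Agent.S33Q Fermat.Agent.S05Lib AlgebraicCurve Fermat.Agent.Curve
  Fermat.Agent.T3 Fermat.Agent.Alpha ModularFormClass CongruenceSubgroup Fermat.Agent.S24Lib

local notation "Qb" => AlgebraicClosure ℚ
local notation "GQ" => (AlgebraicClosure ℚ ≃ₐ[ℚ] AlgebraicClosure ℚ)

noncomputable section

attribute [local instance] s33g_neZero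

/-- an identity in a commutative group -/
theorem ihb_unit_identity {G : Type*} [CommGroup G] (y u : G) (a : ℤ) {p : ℕ} (hp : p ≠ 0) :
    y ^ a * (u * y ^ (-(a / (p : ℤ)))) ^ p = y ^ (a % (p : ℤ)).toNat * u ^ p := by
  have hpz : ((p : ℕ) : ℤ) ≠ 0 := by exact_mod_cast hp
  have h1 : (((a % (p : ℤ)).toNat : ℕ) : ℤ) = a % (p : ℤ) :=
    Int.toNat_of_nonneg (Int.emod_nonneg _ hpz)
  have h2 : a % (p : ℤ) = a + (-(a / (p : ℤ))) * (p : ℤ) := by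
    have := Int.emod_add_mul_ediv a (p : ℤ)
    linarith
  rw [mul_pow, ← zpow_natCast (y ^ (-(a / (p : ℤ)))) p, ← zpow_mul,
    ← zpow_natCast y (a % (p : ℤ)).toNat, h1, h2, zpow_add]
  rw [mul_comm (u ^ p), mul_assoc]

/-- **the toric criterion** -/
theorem ihb_toric (h1 : IhbRedDivAll) (h3 : IhbCmpAll) (𝔓 : FFPlace) (M : ℕ) [NeZero M]
    (h2M : 2 ∣ M) (hK : ¬ 𝔓.p ∣ M * 2) (hq2 : 𝔓.p ≠ 2)
    (p : ℕ) (hp : p.Prime) (hp5 : 5 ≤ p) (hpq : p ≠ 𝔓.p) (hpM : ¬ p ∣ M)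
    (W : WeierstrassCurve ℤ) (hΔ : W.Δ ≠ 0) (hqΔ : ((𝔓.p : ℕ) : ℤ) ∣ W.Δ)
    (hirrW : W.ModRepIsIrreducible p) (hEig : dlwEig M p W = ⊥)
    (ℓ₀ : ℕ) (hℓ₀ : ℓ₀.Prime) (hℓ₀N : ¬ ℓ₀ ∣ M * 2 * 𝔓.p) (hℓ₀p : ℓ₀ ≠ p)
    (hgood₀ : W.IsGoodPrimeFor ℓ₀)
    (hne : ¬ (p : ℤ) ∣ (ℓ₀ : ℤ) + 1 - W.apOfModel ℓ₀)
    (Y : (↥(modularFunctionFieldBar (M * 𝔓.p)))ˣ)
    (hY : ∀ v : Place Qb ↥(modularFunctionFieldBar (M * 𝔓.p)),
      (p : ℤ) ∣ v.ord (Y : ↥(modularFunctionFieldBar (M * 𝔓.p))))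
    (hI : ∀ σ ∈ 𝔓.I, σ • alpfClass hp.ne_zero Y hY = alpfClass hp.ne_zero Y hY)
    (heig : ∀ (ℓ : ℕ) (hℓ : ℓ.Prime), ¬ ℓ ∣ M * 𝔓.p → W.IsGoodPrimeFor ℓ → ℓ ≠ p →
      heckeOperatorBar (M * 𝔓.p) ⟨ℓ, hℓ⟩ (alpfClass hp.ne_zero Y hY) =
        W.apOfModel ℓ • alpfClass hp.ne_zero Y hY) :
    ∃ s : (↥(modularFunctionFieldBar (M * 2 * 𝔓.p)))ˣ,
      T2fInf (M * 2 * 𝔓.p) 𝔓.P
        (dlwInclU (Nat.mul_dvd_mul_right (Dvd.intro 2 rfl : M ∣ M * 2) 𝔓.p) Y * s ^ p) := by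
  classical
  have hp0 : p ≠ 0 := hp.ne_zero
  have hMK : M ∣ M * 2 := Dvd.intro 2 rfl
  have hdvd : M * 𝔓.p ∣ M * 2 * 𝔓.p := Nat.mul_dvd_mul_right hMK 𝔓.p
  have h4 : 4 ∣ M * 2 := by
    obtain ⟨m, rfl⟩ := h2M
    exact ⟨m, by ring⟩
  have hM : ¬ 𝔓.p ∣ M := fun h => hK (h.mul_right 2)
  obtain ⟨Y'', hY''def⟩ : ∃ Y'' : (↥(modularFunctionFieldBar (M * 2 * 𝔓.p)))ˣ,
      Y'' = dlwInclU hdvd Y := ⟨_, rfl⟩
  have hY'' : ∀ v : Place Qb ↥(modularFunctionFieldBar (M * 2 * 𝔓.p)),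
      (p : ℤ) ∣ v.ord (Y'' : ↥(modularFunctionFieldBar (M * 2 * 𝔓.p))) := by
    rw [hY''def]; exact dlw_dvd_ord_incl hdvd Y hY
  have hcls : alpfClass hp0 Y'' hY'' = dlwPullDvd hdvd (alpfClass hp0 Y hY) := by
    subst hY''def
    exact (dlwPullDvd_class hdvd hp0 Y hY).symm
  -- eigenvalues at the rigid level
  have hT'' : ∀ (ℓ : ℕ) (hℓ : ℓ.Prime), ¬ ℓ ∣ M * 2 * 𝔓.p → W.IsGoodPrimeFor ℓ → ℓ ≠ p →
      heckeOperatorBar (M * 2 * 𝔓.p) ⟨ℓ, hℓ⟩ (alpfClass hp0 Y'' hY'') =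
        W.apOfModel ℓ • alpfClass hp0 Y'' hY'' := by
    intro ℓ hℓ hℓN hgood hℓp
    rw [hcls, ← dlwPullDvd_hecke hdvd hℓ hℓN,
      heig ℓ hℓ (fun h => hℓN (h.trans hdvd)) hgood hℓp, map_zsmul]
  -- (B1)+(B2)
  have hord := h1 𝔓 (M * 2) hK h4 p hp hp5 hpq Y'' hY''
    (by
      intro σ hσ
      rw [hcls, ← dlwPullDvd_galois hdvd σ, hI σ hσ])
    ⟨ℓ₀, hℓ₀, W.apOfModel ℓ₀, hℓ₀N, hℓ₀p, hT'' ℓ₀ hℓ₀ hℓ₀N hgood₀ hℓ₀p, hne⟩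
  -- the reduction computed at the level `M`
  have hy₀ := dlsRed_spec 𝔓 M hM Y
  have hle : tbBarF 𝔓 M ≤ tbBarF 𝔓 (M * 2) :=
    full_degeneracyC_le (IsLocalRing.ResidueField ↥𝔓.P) hMK
  obtain ⟨yb', hyb'⟩ : ∃ yb' : ↥(tbBarF 𝔓 (M * 2)),
      (yb' : LaurentSeries (IsLocalRing.ResidueField ↥𝔓.P)) =
        ((dlsRed 𝔓 M hM Y : ↥(tbBarF 𝔓 M)) : LaurentSeries (IsLocalRing.ResidueField ↥𝔓.P)) :=
    ⟨⟨_, hle (dlsRed 𝔓 M hM Y).2⟩, rfl⟩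
  have hred : DlsRedTo 𝔓.P (IsLocalRing.residue ↥𝔓.P)
      ((Y'' : ↥(modularFunctionFieldBar (M * 2 * 𝔓.p))) : LaurentSeries Qb)
      (yb' : LaurentSeries (IsLocalRing.ResidueField ↥𝔓.P)) := by
    rw [hY''def, coe_dlwInclU, hyb']
    exact hy₀
  have hyb0 : yb' ≠ 0 := by
    rintro rfl
    exact hred.ne_zero_right rfl
  have hordyb : ∀ s : Place (IsLocalRing.ResidueField ↥𝔓.P) ↥(tbBarF 𝔓 (M * 2)),
      (p : ℤ) ∣ s.ord yb' := by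
    intro s
    rw [← dls_ord_red_eq 𝔓 (M * 2) hK Y'' yb' hred s]
    exact hord s
  obtain ⟨yb, hyb⟩ : ∃ yb : (↥(tbBarF 𝔓 (M * 2)))ˣ, (yb : ↥(tbBarF 𝔓 (M * 2))) = yb' :=
    ⟨Units.mk0 yb' hyb0, rfl⟩
  -- the eigen-relations after reduction
  have heigb : ∀ (ℓ : ℕ) [NeZero ℓ], ℓ.Prime → ¬ ℓ ∣ M * 2 * 𝔓.p → W.IsGoodPrimeFor ℓ → ℓ ≠ p →
      ∀ (ζ : (↥𝔓.P)ˣ)
        (hζK : IsPrimitiveRoot ((Units.map (𝔓.P.subtype : ↥𝔓.P →* Qb) ζ : Qbˣ) : Qb) ℓ)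
        (hζk : IsPrimitiveRoot ((Units.map ((IsLocalRing.residue ↥𝔓.P : ↥𝔓.P →+*
          IsLocalRing.ResidueField ↥𝔓.P) : ↥𝔓.P →* IsLocalRing.ResidueField ↥𝔓.P) ζ :
          (IsLocalRing.ResidueField ↥𝔓.P)ˣ) : IsLocalRing.ResidueField ↥𝔓.P) ℓ),
        ∃ (c : IsLocalRing.ResidueField ↥𝔓.P) (ub : (↥(tbBarF 𝔓 (M * 2)))ˣ), c ≠ 0 ∧
          tkrTilde ℓ hζk ((yb : ↥(tbBarF 𝔓 (M * 2))) :
              LaurentSeries (IsLocalRing.ResidueField ↥𝔓.P)) =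
            HahnSeries.C c *
              (((yb ^ (W.apOfModel ℓ) * ub ^ p : (↥(tbBarF 𝔓 (M * 2)))ˣ) :
                ↥(tbBarF 𝔓 (M * 2))) : LaurentSeries (IsLocalRing.ResidueField ↥𝔓.P)) := by
    intro ℓ _ hℓ hℓN hgood hℓp ζ hζK hζk
    have hT := hT'' ℓ hℓ hℓN hgood hℓp
    rw [dle_zsmul_eq_nsmul hp0 _ _ (alpt_class_torsion hp0 Y'' hY'')] at hT
    obtain ⟨u, hu⟩ := dle_hecke_rel (M * 2 * 𝔓.p) hℓ hℓN hp0 Y'' hY'' _ hT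
    -- the two reductions of `T_ℓ Y''`
    have hr1 := hred.tilde ℓ ζ hζK hζk
    rw [tkrTilde_eq_tkrHecke hℓ hℓN hζK, ← tkrHeckeUnits_coe, hu] at hr1
    have hru := dlsRed_spec 𝔓 (M * 2) hK u
    have hr2 := (hred.pow ((W.apOfModel ℓ % (p : ℤ)).toNat)).mul (hru.pow p)
    have hcoe : ((((Y'' ^ (W.apOfModel ℓ % (p : ℤ)).toNat * u ^ p :
        (↥(modularFunctionFieldBar (M * 2 * 𝔓.p)))ˣ) : ↥(modularFunctionFieldBar (M * 2 * 𝔓.p))) :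
        LaurentSeries Qb)) =
        ((Y'' : ↥(modularFunctionFieldBar (M * 2 * 𝔓.p))) : LaurentSeries Qb) ^
          (W.apOfModel ℓ % (p : ℤ)).toNat *
        ((u : ↥(modularFunctionFieldBar (M * 2 * 𝔓.p))) : LaurentSeries Qb) ^ p := by
      rw [Units.val_mul, Units.val_pow_eq_pow_val, Units.val_pow_eq_pow_val, MulMemClass.coe_mul,
        SubmonoidClass.coe_pow, SubmonoidClass.coe_pow]
    rw [hcoe] at hr1
    obtain ⟨c, hc, hcy⟩ := hr2.unique hr1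
    have hub0 : dlsRed 𝔓 (M * 2) hK u ≠ 0 := dlsRed_ne_zero 𝔓 (M * 2) hK u
    refine ⟨c, Units.mk0 _ hub0 * yb ^ (-(W.apOfModel ℓ / (p : ℤ))), hc, ?_⟩
    rw [hyb, hcy]
    congr 1
    -- the unit identity
    have hunit := ihb_unit_identity yb (Units.mk0 _ hub0) (W.apOfModel ℓ) hp0
    rw [hunit, Units.val_mul, Units.val_pow_eq_pow_val, Units.val_pow_eq_pow_val, hyb,
      MulMemClass.coe_mul, SubmonoidClass.coe_pow, SubmonoidClass.coe_pow]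
    rfl
  -- (B3)
  obtain ⟨c, gb, hc, hyg⟩ := h3 𝔓 M h2M hK hq2 p hp hp5 hpq hpM W hΔ hqΔ hirrW hEig yb
    (by rw [hyb, hyb']; exact (dlsRed 𝔓 M hM Y).2)
    (by intro s; rw [hyb]; exact hordyb s) heigb
  -- lift the root
  obtain ⟨g, hg⟩ := ihb_exists_lift 𝔓 (M * 2) (gb : ↥(tbBarF 𝔓 (M * 2))) gb.ne_zero
  refine ⟨g⁻¹, ?_⟩
  rw [← hY''def]
  refine ihb_inf_of_redTo_const 𝔓 (M * 2 * 𝔓.p) (Y'' * g⁻¹ ^ p) hc ?_
  have hcoe : ((((Y'' * g⁻¹ ^ p : (↥(modularFunctionFieldBar (M * 2 * 𝔓.p)))ˣ) :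
      ↥(modularFunctionFieldBar (M * 2 * 𝔓.p))) : LaurentSeries Qb)) =
      ((Y'' : ↥(modularFunctionFieldBar (M * 2 * 𝔓.p))) : LaurentSeries Qb) *
        (((g : ↥(modularFunctionFieldBar (M * 2 * 𝔓.p))) : LaurentSeries Qb)⁻¹) ^ p := by
    rw [Units.val_mul, Units.val_pow_eq_pow_val, Units.val_inv_eq_inv_val, MulMemClass.coe_mul,
      SubmonoidClass.coe_pow]
    rfl
  rw [hcoe]
  have hr := hred.mul ((hg.inv).pow p)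
  have hconst : (yb' : LaurentSeries (IsLocalRing.ResidueField ↥𝔓.P)) *
      (((gb : ↥(tbBarF 𝔓 (M * 2))) : LaurentSeries (IsLocalRing.ResidueField ↥𝔓.P))⁻¹) ^ p =
      HahnSeries.C c := by
    have hgb0 : ((gb : ↥(tbBarF 𝔓 (M * 2))) : LaurentSeries (IsLocalRing.ResidueField ↥𝔓.P)) ≠ 0 :=
      fun h0 => gb.ne_zero (Subtype.ext h0)
    rw [← hyb, hyg, Units.val_pow_eq_pow_val, SubmonoidClass.coe_pow, inv_pow, mul_assoc,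
      mul_inv_cancel₀ (pow_ne_zero p hgb0), mul_one]
  rw [hconst] at hr
  exact hr

end

end Fermat.Agent.Ihara
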