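/-
IHARA / B0 (helper4), file 6: **the Frobenius relations on an unramified copy of `W[p]` in `J₀(M q)[p]`
which does not come from the level `M`**.

`V₀ ⊆ J₀(M q)[p]` Galois stable, in the `W`-eigenspace, with trivial action of the inertia group at
`𝔓 | q`; the eigensystem of `W` does not occur in `J₀(M)[p]`.  Then, for a Frobenius element `φ` at `𝔓`:

* `ihb_V_frob_sq` : `φ² = q²` on `V₀`;
* `ihb_V_frob_w`  : `π^*(φ x) + q w_q (π^* x) = 0` in `J₀(2 M q)` for `x ∈ V₀`.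
-/
import Mathlib
import Fermat.Agent.Lib.Ihara.B.Wire.Toric
import Fermat.Agent.Lib.Ihara.B.Wire.Frob

set_option autoImplicit false
set_option linter.unusedSectionVars false
set_option linter.unusedVariables false
set_option linter.style.haveILetI false
set_option synthInstance.maxHeartbeats 400000
set_option maxHeartbeats 1000000

namespace Fermat.Agent.Ihara

open ModularCurve HahnSeries Fermat.Agent.T1 Fermat.Agent.T2 Fermat.Agent.TW Fermat.Agent.Delta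
  Fermat.Agent.S33 Fermat.Agent.S33Q Fermat.Agent.S05Lib AlgebraicCurve Fermat.Agent.Curve
  Fermat.Agent.T3 Fermat.Agent.Alpha ModularFormClass CongruenceSubgroup Fermat.Agent.S24Lib

local notation "Qb" => AlgebraicClosure ℚ
local notation "GQ" => (AlgebraicClosure ℚ ≃ₐ[ℚ] AlgebraicClosure ℚ)

noncomputable section

attribute [local instance] s33g_neZero
attribute [local instance] t2gp_fact

/-- `w_q` commutes with the inclusion of the level `M q` into the level `2 M q`, on units -/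
theorem ihb_w_incl (M e q : ℕ) [NeZero M] [NeZero e] [NeZero q] [Fact q.Prime] (hM : ¬ q ∣ M)
    (hMe : ¬ q ∣ M * e) (Y : (↥(modularFunctionFieldBar (M * q)))ˣ) :
    dleWU (M * e) q hMe
        (dlwInclU (Nat.mul_dvd_mul_right (Dvd.intro e rfl : M ∣ M * e) q) Y) =
      dlwInclU (Nat.mul_dvd_mul_right (Dvd.intro e rfl : M ∣ M * e) q) (dleWU M q hM Y) := by
  apply Units.ext
  have hincl : ((dlwInclU (Nat.mul_dvd_mul_right (Dvd.intro e rfl : M ∣ M * e) q) Y :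
      (↥(modularFunctionFieldBar (M * e * q)))ˣ) : ↥(modularFunctionFieldBar (M * e * q))) =
      t3pIncl M e q (Y : ↥(modularFunctionFieldBar (M * q))) := by
    apply Subtype.ext
    rw [coe_dlwInclU, coe_t3pIncl]
  rw [coe_dleWU, hincl, dlw_w_incl M e q hM hMe]
  apply Subtype.ext
  rw [coe_t3pIncl, coe_dlwInclU, coe_dleWU]

section Core

variable (h1 : IhbRedDivAll) (h3 : IhbCmpAll) (𝔓 : FFPlace) (M : ℕ) [NeZero M]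
  (h2M : 2 ∣ M) (hK : ¬ 𝔓.p ∣ M * 2) (hq2 : 𝔓.p ≠ 2)
  (p : ℕ) (hp : p.Prime) (hp5 : 5 ≤ p) (hpq : p ≠ 𝔓.p) (hpM : ¬ p ∣ M)
  (W : WeierstrassCurve ℤ) (hΔ : W.Δ ≠ 0) (hqΔ : ((𝔓.p : ℕ) : ℤ) ∣ W.Δ)
  (hirrW : W.ModRepIsIrreducible p) (hEig : dlwEig M p W = ⊥)
  (ℓ₀ : ℕ) (hℓ₀ : ℓ₀.Prime) (hℓ₀N : ¬ ℓ₀ ∣ M * 2 * 𝔓.p) (hℓ₀p : ℓ₀ ≠ p)
  (hgood₀ : W.IsGoodPrimeFor ℓ₀)
  (hne : ¬ (p : ℤ) ∣ (ℓ₀ : ℤ) + 1 - W.apOfModel ℓ₀)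
  (V₀ : AddSubgroup (JZero (M * 𝔓.p))) (htor : ∀ x ∈ V₀, p • x = 0)
  (hI : ∀ σ ∈ 𝔓.I, ∀ x ∈ V₀, σ • x = x)
  (heig : ∀ (ℓ : ℕ) (hℓ : ℓ.Prime), ¬ ℓ ∣ M * 𝔓.p → W.IsGoodPrimeFor ℓ → ℓ ≠ p →
    ∀ x ∈ V₀, heckeOperatorBar (M * 𝔓.p) ⟨ℓ, hℓ⟩ x = W.apOfModel ℓ • x)

include h1 h3 h2M hK hq2 hp hp5 hpq hpM hΔ hqΔ hirrW hEig hℓ₀ hℓ₀N hℓ₀p hgood₀ hne htor hI heig

/-- both `Y''` and `w_q Y''` are toric, for a Kummer function of a point of `V₀` -/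
theorem ihb_V_toric (x : JZero (M * 𝔓.p)) (hx : x ∈ V₀)
    (Y : (↥(modularFunctionFieldBar (M * 𝔓.p)))ˣ)
    (hY : ∀ v : Place Qb ↥(modularFunctionFieldBar (M * 𝔓.p)),
      (p : ℤ) ∣ v.ord (Y : ↥(modularFunctionFieldBar (M * 𝔓.p))))
    (hYx : alpfClass hp.ne_zero Y hY = x) :
    (∃ s : (↥(modularFunctionFieldBar (M * 2 * 𝔓.p)))ˣ, T2fInf (M * 2 * 𝔓.p) 𝔓.P
      (dlwInclU (Nat.mul_dvd_mul_right (Dvd.intro 2 rfl : M ∣ M * 2) 𝔓.p) Y * s ^ p)) ∧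
    (∃ s : (↥(modularFunctionFieldBar (M * 2 * 𝔓.p)))ˣ, T2fInf (M * 2 * 𝔓.p) 𝔓.P
      (dleWU (M * 2) 𝔓.p hK
        (dlwInclU (Nat.mul_dvd_mul_right (Dvd.intro 2 rfl : M ∣ M * 2) 𝔓.p) Y) * s ^ p)) := by
  have hp0 := hp.ne_zero
  have hM : ¬ 𝔓.p ∣ M := fun h => hK (h.mul_right 2)
  have hMK : M ∣ M * 2 := Dvd.intro 2 rfl
  have hdvd : M * 𝔓.p ∣ M * 2 * 𝔓.p := Nat.mul_dvd_mul_right hMK 𝔓.p
  constructor
  · refine ihb_toric h1 h3 𝔓 M h2M hK hq2 p hp hp5 hpq hpM W hΔ hqΔ hirrW hEig ℓ₀ hℓ₀ hℓ₀N hℓ₀p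
      hgood₀ hne Y hY ?_ ?_
    · intro σ hσ
      rw [hYx]
      exact hI σ hσ x hx
    · intro ℓ hℓ hℓN hgood hℓp
      rw [hYx]
      exact heig ℓ hℓ hℓN hgood hℓp x hx
  · rw [ihb_w_incl M 2 𝔓.p hM hK Y]
    have hYw := dle_dvd_ord_w M 𝔓.p hM Y hY
    have hcl : alpfClass hp0 (dleWU M 𝔓.p hM Y) hYw = dleWJ M 𝔓.p hM x := by
      rw [← hYx]
      exact (dleWJ_class M 𝔓.p hM hp0 Y hY).symm
    refine ihb_toric h1 h3 𝔓 M h2M hK hq2 p hp hp5 hpq hpM W hΔ hqΔ hirrW hEig ℓ₀ hℓ₀ hℓ₀N hℓ₀p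
      hgood₀ hne (dleWU M 𝔓.p hM Y) hYw ?_ ?_
    · intro σ hσ
      rw [hcl, ← dleWJ_galois M 𝔓.p hM σ x, hI σ hσ x hx]
    · intro ℓ hℓ hℓN hgood hℓp
      haveI : Fact ℓ.Prime := ⟨hℓ⟩
      have h0 := heig ℓ hℓ hℓN hgood hℓp x hx
      rw [← hYx] at h0
      exact dle_class_w_eigen_int M 𝔓.p ℓ hM hp0 hℓN Y hY (W.apOfModel ℓ) h0

/-- **`φ² = q²` on `V₀`** -/
theorem ihb_V_frob_sq {φ : GQ} (hφ : 𝔓.P.IsFrobeniusAt φ 𝔓.p) (x : JZero (M * 𝔓.p))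
    (hx : x ∈ V₀) : φ • φ • x = (𝔓.p ^ 2) • x := by
  have hp0 := hp.ne_zero
  have hMK : M ∣ M * 2 := Dvd.intro 2 rfl
  have hdvd : M * 𝔓.p ∣ M * 2 * 𝔓.p := Nat.mul_dvd_mul_right hMK 𝔓.p
  obtain ⟨Y, hY, hYx⟩ := alpf_exists_class hp0 x (by rw [natCast_zsmul]; exact htor x hx)
  obtain ⟨T1, T2⟩ := ihb_V_toric h1 h3 𝔓 M h2M hK hq2 p hp hp5 hpq hpM W hΔ hqΔ hirrW hEig ℓ₀ hℓ₀
    hℓ₀N hℓ₀p hgood₀ hne V₀ htor hI heig x hx Y hY hYx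
  have hY'' := dlw_dvd_ord_incl hdvd Y hY
  have h := ihb_frob_sq 𝔓 (M * 2) hK hφ hp hpq (dlwInclU hdvd Y) hY'' T1 T2
  rw [← dlwPullDvd_class hdvd hp0 Y hY, hYx, ← dlwPullDvd_galois, ← dlwPullDvd_galois,
    ← map_nsmul] at h
  have h0 : dlwPullDvd hdvd (φ • φ • x - (𝔓.p ^ 2) • x) = 0 := by
    rw [map_sub, h, sub_self]
  have htor' : p • (φ • φ • x - (𝔓.p ^ 2) • x) = 0 := by
    have a1 : p • (φ • x) = 0 := by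
      rw [smul_comm p φ x, htor x hx]
      exact smul_zero (A := JZero (M * 𝔓.p)) φ
    have e1 : p • (φ • φ • x) = 0 := by
      rw [smul_comm p φ (φ • x), a1]
      exact smul_zero (A := JZero (M * 𝔓.p)) φ
    have e2 : p • ((𝔓.p ^ 2) • x) = 0 := by
      rw [smul_comm p (𝔓.p ^ 2) x, htor x hx]
      exact smul_zero (A := JZero (M * 𝔓.p)) (𝔓.p ^ 2)
    rw [nsmul_sub, e1, e2, sub_zero]
  exact sub_eq_zero.mp (dlwPullDvd_eq_zero hdvd hp0 _ htor' h0)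

/-- **`φ = - q w_q` on (the pull-back of) `V₀`** -/
theorem ihb_V_frob_w (h4 : IhbToricFrob) {φ : GQ} (hφ : 𝔓.P.IsFrobeniusAt φ 𝔓.p)
    (x : JZero (M * 𝔓.p)) (hx : x ∈ V₀) :
    dlwPullDvd (Nat.mul_dvd_mul_right (Dvd.intro 2 rfl : M ∣ M * 2) 𝔓.p) (φ • x) +
      𝔓.p • dleWJ (M * 2) 𝔓.p hK
        (dlwPullDvd (Nat.mul_dvd_mul_right (Dvd.intro 2 rfl : M ∣ M * 2) 𝔓.p) x) = 0 := by
  have hp0 := hp.ne_zero
  have hMK : M ∣ M * 2 := Dvd.intro 2 rfl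
  have hdvd : M * 𝔓.p ∣ M * 2 * 𝔓.p := Nat.mul_dvd_mul_right hMK 𝔓.p
  obtain ⟨Y, hY, hYx⟩ := alpf_exists_class hp0 x (by rw [natCast_zsmul]; exact htor x hx)
  obtain ⟨T1, T2⟩ := ihb_V_toric h1 h3 𝔓 M h2M hK hq2 p hp hp5 hpq hpM W hΔ hqΔ hirrW hEig ℓ₀ hℓ₀
    hℓ₀N hℓ₀p hgood₀ hne V₀ htor hI heig x hx Y hY hYx
  have hY'' := dlw_dvd_ord_incl hdvd Y hY
  have h := ihb_frob_w 𝔓 (M * 2) hK h4 hφ hp hpq (dlwInclU hdvd Y) hY'' T1 T2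
  rw [← dlwPullDvd_class hdvd hp0 Y hY, hYx, ← dlwPullDvd_galois] at h
  exact h

end Core

end

end Fermat.Agent.Ihara
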