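/-
IHARA / B0 (helper4), file 5: **the Galois side**.

* `ihb_dvd_Δ_of_model` : a prime dividing `a b c` divides the discriminant of every integral model of
  the Frey curve (semistability of `freyCurveInt`);
* `ihb_det_frob`       : a Frobenius element at `q ≠ p` has determinant `q` on `W[p]`.
-/
import Mathlib
import Fermat.Agent.Lib.Mazur2.Frey.Model
import Fermat.Agent.Lib.S58.Det
import Fermat.Agent.Lib.S58.ET
import Fermat.Agent.Lib.S58.Match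
import Fermat.Agent.Lib.TW.TWPrimes.Cyclo
import Fermat.Prelude.Def_FLTPrelim_Modularity

set_option autoImplicit false
set_option linter.unusedSectionVars false
set_option linter.unusedVariables false
set_option linter.style.haveILetI false
set_option synthInstance.maxHeartbeats 400000

namespace Fermat.Agent.Ihara

open WeierstrassCurve Fermat.Agent.Mazur2

local notation "Qb" => AlgebraicClosure ℚ
local notation "GQ" => (AlgebraicClosure ℚ ≃ₐ[ℚ] AlgebraicClosure ℚ)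

/-- **a prime dividing `a b c` is bad for every integral model of the Frey curve** -/
theorem ihb_dvd_Δ_of_model (P : FreyPackage) {W : WeierstrassCurve ℤ}
    (hWE : W.IsIntegralModelOf P.freyCurve) {ℓ : ℕ} (hℓ : ℓ.Prime)
    (h : (ℓ : ℤ) ∣ P.a * P.b * P.c) : (ℓ : ℤ) ∣ W.Δ := by
  obtain ⟨C, hC⟩ := hWE
  rw [← mz2f_frey_eq P] at hC
  have hpr := Nat.prime_iff_prime_int.mp hℓ
  have hΔ₀ := mz2f_dvd_Δ_of_dvd_abc P hℓ h
  have hc₀ := mz2f_semistable P hℓ hΔ₀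
  -- the two transformation formulas
  have e1 : ((W.Δ : ℤ) : ℚ) = (C.u⁻¹ : ℚˣ) ^ 12 * ((P.freyCurveInt.Δ : ℤ) : ℚ) := by
    have := congrArg WeierstrassCurve.Δ hC
    rw [WeierstrassCurve.variableChange_Δ, WeierstrassCurve.map_Δ, WeierstrassCurve.map_Δ] at this
    simpa using this.symm
  have e2 : ((W.c₄ : ℤ) : ℚ) = (C.u⁻¹ : ℚˣ) ^ 4 * ((P.freyCurveInt.c₄ : ℤ) : ℚ) := by
    have := congrArg WeierstrassCurve.c₄ hC
    rw [WeierstrassCurve.variableChange_c₄, WeierstrassCurve.map_c₄, WeierstrassCurve.map_c₄] at this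
    simpa using this.symm
  obtain ⟨m, n, hn0, hcop, hvq⟩ : ∃ (m : ℤ) (n : ℕ), n ≠ 0 ∧ m.natAbs.Coprime n ∧
      (((C.u⁻¹ : ℚˣ) : ℚ)) = (m : ℚ) / (n : ℚ) :=
    ⟨(((C.u⁻¹ : ℚˣ) : ℚ)).num, (((C.u⁻¹ : ℚˣ) : ℚ)).den, (((C.u⁻¹ : ℚˣ) : ℚ)).den_ne_zero,
      (((C.u⁻¹ : ℚˣ) : ℚ)).reduced, (Rat.num_div_den _).symm⟩
  have hden : ((n : ℕ) : ℚ) ≠ 0 := by exact_mod_cast hn0
  -- clear denominators
  have f1 : W.Δ * (n : ℤ) ^ 12 = m ^ 12 * P.freyCurveInt.Δ := by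
    have : ((W.Δ : ℤ) : ℚ) * ((n : ℕ) : ℚ) ^ 12 = (m : ℚ) ^ 12 * ((P.freyCurveInt.Δ : ℤ) : ℚ) := by
      rw [e1, hvq]
      field_simp
    exact_mod_cast this
  have f2 : W.c₄ * (n : ℤ) ^ 4 = m ^ 4 * P.freyCurveInt.c₄ := by
    have : ((W.c₄ : ℤ) : ℚ) * ((n : ℕ) : ℚ) ^ 4 = (m : ℚ) ^ 4 * ((P.freyCurveInt.c₄ : ℤ) : ℚ) := by
      rw [e2, hvq]
      field_simp
    exact_mod_cast this
  by_contra hcon
  -- `ℓ ∣ den`
  have g1 : (ℓ : ℤ) ∣ W.Δ * (n : ℤ) ^ 12 := by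
    rw [f1]; exact Dvd.dvd.mul_left hΔ₀ _
  have g2 : (ℓ : ℤ) ∣ (n : ℤ) := by
    rcases hpr.dvd_or_dvd g1 with h1 | h1
    · exact absurd h1 hcon
    · exact hpr.dvd_of_dvd_pow h1
  -- `ℓ ∣ num ^ 4 * c₄`
  have g3 : (ℓ : ℤ) ∣ m ^ 4 * P.freyCurveInt.c₄ := by
    rw [← f2]; exact Dvd.dvd.mul_left (dvd_pow g2 (by norm_num)) _
  rcases hpr.dvd_or_dvd g3 with h1 | h1
  · have g4 : (ℓ : ℤ) ∣ m := hpr.dvd_of_dvd_pow h1
    -- contradiction with coprimality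
    have h5 : ℓ ∣ m.natAbs := Int.natCast_dvd.mp g4
    have h6 : ℓ ∣ n := by exact_mod_cast g2
    have h7 : ℓ ∣ Nat.gcd m.natAbs n := Nat.dvd_gcd h5 h6
    rw [hcop] at h7
    exact hℓ.one_lt.ne' (Nat.dvd_one.mp h7)
  · exact hc₀ h1

open Fermat.Agent.S58 in
/-- **a Frobenius element at `q ≠ p` has determinant `q` on `W[p]`** -/
theorem ihb_det_frob (W : WeierstrassCurve ℤ) (hΔ : W.Δ ≠ 0) {p q : ℕ} (hp : p.Prime)
    (hq : q.Prime) (hpq : p ≠ q) {A : ValuationSubring Qb} (hA : A.LiesOverPrime q) {φ : GQ}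
    (hφ : A.IsFrobeniusAt φ q) :
    LinearMap.det (s58Gal W p φ) = ((q : ℕ) : ZMod p) := by
  haveI : NeZero p := ⟨hp.ne_zero⟩
  haveI : NeZero ((p : ℕ) : Qb) := ⟨by exact_mod_cast hp.ne_zero⟩
  have het := s58_et W hΔ
  set d : ℕ := (LinearMap.det (s58Gal W p φ)).val with hd
  have hdd : LinearMap.det (s58Gal W p φ) = ((d : ℕ) : ZMod p) := by
    rw [hd, ZMod.natCast_zmod_val]
  have hcyc := s58d_det_cyclo W hΔ het hp (pow_one p).symm φ d hdd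
  obtain ⟨ζ, hζ⟩ := HasEnoughRootsOfUnity.exists_primitiveRoot Qb p
  have h1 := hcyc ζ hζ.pow_eq_one
  have hcop : Nat.Coprime p q := (Nat.coprime_primes hp hq).mpr hpq
  have h2 := Fermat.Agent.TW.twp_frobenius_rootOfUnity hA hφ hp.pos hcop hζ.pow_eq_one
  rw [h2] at h1
  have h3 : q ≡ d [MOD p] := by
    have := hζ.eq_orderOf
    rw [this]
    have hfin : IsOfFinOrder ζ := isOfFinOrder_iff_pow_eq_one.mpr ⟨p, hp.pos, hζ.pow_eq_one⟩
    exact hfin.pow_eq_pow_iff_modEq.mp h1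
  rw [hdd]
  exact ((ZMod.natCast_eq_natCast_iff q d p).mpr h3).symm

end Fermat.Agent.Ihara
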