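/-
IHARA / B0 (helper4), file 3: **linear algebra of a Frobenius on a plane**.

`V` a plane over a field `F`, `g ∈ End V` with `g² = q²` and `det g = q ≠ 0`:
* `ihb_cayley`           : `g² = tr(g) g - det(g)`;
* `ihb_trace_smul`       : `tr(g) g = q² + q`;
* `ihb_scalar_or`        : `g` is a scalar, or `q = -1` and `g² = 1`;
* `ihb_eq_one_of_scalar` : if `g` is a scalar then `q = 1`;
* `ihb_scalar_of_commute`: an involution commuting with an irreducible family is `± 1`.
-/
import Mathlib

set_option autoImplicit false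
set_option linter.style.haveILetI false

namespace Fermat.Agent.Ihara

open Polynomial

section Plane

variable {F V : Type*} [Field F] [AddCommGroup V] [Module F V]

/-- **Cayley–Hamilton on a plane** -/
theorem ihb_cayley [Module.Finite F V] (h2 : Module.finrank F V = 2) (g : Module.End F V) :
    g * g = LinearMap.trace F V g • g - LinearMap.det g • (1 : Module.End F V) := by
  classical
  let b : Module.Basis (Fin 2) F V := Module.finBasisOfFinrankEq F V h2
  have hch : g.charpoly = X ^ 2 - C (LinearMap.trace F V g) * X + C (LinearMap.det g) := by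
    rw [← LinearMap.charpoly_toMatrix g b, Matrix.charpoly_fin_two,
      ← LinearMap.trace_eq_matrix_trace F b g, LinearMap.det_toMatrix b g]
  have h0 := LinearMap.aeval_self_charpoly g
  rw [hch] at h0
  simp only [map_add, map_sub, map_mul, map_pow, aeval_X, aeval_C] at h0
  rw [Algebra.algebraMap_eq_smul_one, Algebra.algebraMap_eq_smul_one, smul_mul_assoc, one_mul,
    sq] at h0
  rw [eq_sub_iff_add_eq, ← sub_eq_zero]
  rw [← h0]
  abel

/-- `tr(g) g = q² + q` -/
theorem ihb_trace_smul [Module.Finite F V] (h2 : Module.finrank F V = 2) (g : Module.End F V)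
    (q : F) (hsq : g * g = (q ^ 2) • (1 : Module.End F V)) (hdet : LinearMap.det g = q) :
    LinearMap.trace F V g • g = (q ^ 2 + q) • (1 : Module.End F V) := by
  have h := ihb_cayley h2 g
  rw [hsq, hdet] at h
  rw [add_smul, h]
  abel

/-- `g` is a scalar or `q = -1` -/
theorem ihb_scalar_or [Module.Finite F V] (h2 : Module.finrank F V = 2) (g : Module.End F V)
    (q : F) (hq0 : q ≠ 0) (hsq : g * g = (q ^ 2) • (1 : Module.End F V))
    (hdet : LinearMap.det g = q) :
    (∃ c : F, g = c • (1 : Module.End F V)) ∨ (q = -1 ∧ g * g = 1) := by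
  have h := ihb_trace_smul h2 g q hsq hdet
  by_cases ht : LinearMap.trace F V g = 0
  · right
    rw [ht, zero_smul] at h
    haveI : Nontrivial V := Module.nontrivial_of_finrank_pos (R := F) (by rw [h2]; norm_num)
    have h1 : q ^ 2 + q = 0 := by
      by_contra hne
      have h3 : (1 : Module.End F V) = 0 := by
        have := congrArg (fun f => (q ^ 2 + q)⁻¹ • f) h
        simpa [smul_smul, inv_mul_cancel₀ hne] using this.symm
      exact one_ne_zero h3
    have h4 : q * (q + 1) = 0 := by rw [← h1]; ring
    have h5 : q + 1 = 0 := (mul_eq_zero.mp h4).resolve_left hq0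
    have h6 : q = -1 := eq_neg_of_add_eq_zero_left h5
    refine ⟨h6, ?_⟩
    rw [hsq, h6]
    simp
  · left
    refine ⟨(LinearMap.trace F V g)⁻¹ * (q ^ 2 + q), ?_⟩
    have := congrArg (fun f => (LinearMap.trace F V g)⁻¹ • f) h
    simp only [smul_smul, inv_mul_cancel₀ ht, one_smul] at this
    exact this

/-- a scalar Frobenius forces `q = 1` -/
theorem ihb_eq_one_of_scalar [Module.Finite F V] (h2 : Module.finrank F V = 2)
    (g : Module.End F V) (q : F) (hq0 : q ≠ 0) (hsq : g * g = (q ^ 2) • (1 : Module.End F V))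
    (hdet : LinearMap.det g = q) (c : F) (hg : g = c • (1 : Module.End F V)) : q = 1 := by
  haveI : Nontrivial V := Module.nontrivial_of_finrank_pos (R := F) (by rw [h2]; norm_num)
  have h1 : c ^ 2 = q := by
    rw [hg, LinearMap.det_smul, h2, map_one, mul_one] at hdet
    exact hdet
  have h3 : (c ^ 2) • (1 : Module.End F V) = (q ^ 2) • (1 : Module.End F V) := by
    rw [← hsq, hg, smul_mul_smul_comm, one_mul, sq]
  have h4 : c ^ 2 = q ^ 2 := by
    by_contra hne
    have h5 : (c ^ 2 - q ^ 2) • (1 : Module.End F V) = 0 := by rw [sub_smul, h3, sub_self]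
    rcases smul_eq_zero.mp h5 with h6 | h6
    · exact hne (sub_eq_zero.mp h6)
    · exact one_ne_zero h6
  rw [h1] at h4
  have h5 : q * (q - 1) = 0 := by rw [mul_sub, mul_one, ← sq, ← h4, sub_self]
  exact sub_eq_zero.mp ((mul_eq_zero.mp h5).resolve_left hq0)

end Plane

section Commute

variable {F V : Type*} [Field F] [AddCommGroup V] [Module F V]

/-- **an involution commuting with an irreducible family of endomorphisms is `± 1`** -/
theorem ihb_scalar_of_commute (g : Module.End F V) (hgg : g * g = 1)
    (S : Set (Module.End F V))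
    (hirr : ∀ N : Submodule F V, (∀ σ ∈ S, ∀ x ∈ N, σ x ∈ N) → N = ⊥ ∨ N = ⊤)
    (hcomm : ∀ σ ∈ S, σ * g = g * σ) :
    g = 1 ∨ g = -1 := by
  have hstab : ∀ σ ∈ S, ∀ x ∈ LinearMap.ker (g - 1), σ x ∈ LinearMap.ker (g - 1) := by
    intro σ hσ x hx
    rw [LinearMap.mem_ker, LinearMap.sub_apply, Module.End.one_apply, sub_eq_zero] at hx ⊢
    have h1 : g (σ x) = (g * σ) x := rfl
    rw [h1, ← hcomm σ hσ, Module.End.mul_apply, hx]
  rcases hirr _ hstab with h | h
  · right
    apply LinearMap.ext
    intro x
    have h1 : (g + 1) x ∈ LinearMap.ker (g - 1) := by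
      rw [LinearMap.mem_ker]
      have h2 : (g - 1) ((g + 1) x) = ((g - 1) * (g + 1)) x := rfl
      have h3 : (g - 1) * (g + 1) = g * g - 1 := by noncomm_ring
      rw [h2, h3, hgg, sub_self, LinearMap.zero_apply]
    rw [h, Submodule.mem_bot, LinearMap.add_apply, Module.End.one_apply] at h1
    rw [LinearMap.neg_apply, Module.End.one_apply]
    exact eq_neg_of_add_eq_zero_left h1
  · left
    apply LinearMap.ext
    intro x
    have h1 : x ∈ LinearMap.ker (g - 1) := by rw [h]; exact Submodule.mem_top
    rw [LinearMap.mem_ker, LinearMap.sub_apply, Module.End.one_apply, sub_eq_zero] at h1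
    rw [h1, Module.End.one_apply]

end Commute

end Fermat.Agent.Ihara
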